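import Fermat.Agent.S33.Defs
import Fermat.Agent.S44.Eis.Defs
import Fermat.Agent.S44.XD.Defs
import Fermat.Agent.SS.New.Defs
import Fermat.Agent.ES.B.ToD

/-!
# S44 (Mazur-Ribet at `p`, Frey form): shared definitions and the interface statements

Blueprint: board topic `S40`, posts #1758, #1785, #1827 (helper91), #2215 (helper45, OLD route B),
#2328 (helper18, cover structure) and the "DECISIONS 23:55Z" post.

Level `N = M * p`, `p ∤ M`, `p ≥ 5`; `A` a valuation ring of `ℚ̄` over `p`, `k = kA A`;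
`Ft = S37.Mod.resF M A ⊆ k((q))` the residue field of the Gauss valuation of `FF M`
(= function field of `X₀(M)` mod `p`).

* `Eis.NCk / Eis.ALLk / Cuspk M A p r` : `r ∈ Ftˣ` and `p ∣ ord_Q r` for the non-cuspidal / all / the cuspidal
  places `Q` of `Ft / k`  (`Eis.NC`, `Eis.ALLP`, `CuspP` : the same for the reduction of `u ∈ ℚ̄((q))`);
* `Pair`, `Const`, `Tres`, `Old`, `ResDeg` : the interface statements.
-/

set_option autoImplicit false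

open AlgebraicCurve ModularCurve

namespace Fermat.Agent.S44

open Fermat.Agent.ES Fermat.Agent.SS Fermat.Agent.S33
open Fermat.Agent.S37.Mod (resF)
open Fermat.Agent.S44.Eis (jt NCk ALLk HasRed)
open Fermat.Agent.S44.XD (XD)

noncomputable section

/-- `r ∈ Ftˣ`, and `p ∣ ord_Q r` at all cuspidal places of `Ft / k`. -/
def Cuspk (M : ℕ) [NeZero M] (A : ValuationSubring Qb) (p : ℕ) (r : LaurentSeries (kA A)) : Prop :=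
  ∃ hr : r ∈ resF M A, r ≠ 0 ∧
    ∀ Q : Place (kA A) (resF M A), Q.ord (jt M A) < 0 → (p : ℤ) ∣ Q.ord (⟨r, hr⟩ : resF M A)

/-- `u` reduces, up to a nonzero constant, to some `r` with `Cuspk`. -/
def CuspP (M : ℕ) [NeZero M] (A : ValuationSubring Qb) (p : ℕ) (u : LaurentSeries Qb) : Prop :=
  ∃ r : LaurentSeries (kA A), RedUp A u r ∧ Cuspk M A p r

theorem allk_of_nck_cuspk {M : ℕ} [NeZero M] {A : ValuationSubring Qb} {p : ℕ}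
    {r : LaurentSeries (kA A)} (h1 : NCk M A p r) (h2 : Cuspk M A p r) : ALLk M A p r := by
  obtain ⟨hr, h0, h3⟩ := h1
  obtain ⟨_, _, h4⟩ := h2
  refine ⟨hr, h0, fun Q => ?_⟩
  rcases lt_or_ge (Q.ord (jt M A)) 0 with h | h
  · exact h4 Q h
  · exact h3 Q h

/-- `x` is a unit of `A` times `l ^ n` for some `n : ℤ`. -/
def ValZ (A : ValuationSubring Qb) (l x : Qb) : Prop :=
  ∃ n : ℤ, x / l ^ n ∈ A ∧ (x / l ^ n)⁻¹ ∈ A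

/-- `I₁`: the elements of the inertia group at `A` which fix `ζ`. -/
def I1 (A : ValuationSubring Qb) (ζ : Qb) : Subgroup GQ where
  carrier := {s | s ∈ A.inertiaSubgroupIn ℚ ∧ s ζ = ζ}
  mul_mem' := by
    rintro a b ⟨ha, ha'⟩ ⟨hb, hb'⟩
    exact ⟨mul_mem ha hb, by rw [AlgEquiv.mul_apply, hb', ha']⟩
  one_mem' := ⟨one_mem _, rfl⟩
  inv_mem' := by
    rintro a ⟨ha, ha'⟩
    refine ⟨inv_mem ha, ?_⟩
    have : a⁻¹ (a ζ) = ζ := by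
      rw [← AlgEquiv.mul_apply, inv_mul_cancel, AlgEquiv.one_apply]
    rwa [ha'] at this

theorem mem_I1 {A : ValuationSubring Qb} {ζ : Qb} {s : GQ} :
    s ∈ I1 A ζ ↔ s ∈ A.inertiaSubgroupIn ℚ ∧ s ζ = ζ := Iff.rfl

/-- the hypotheses on the pair `(y₀, y)` produced by the soft part and consumed by `Const`. -/
structure Pair (M p : ℕ) [NeZero M] [NeZero p] (hp : p.Prime) (A : ValuationSubring Qb)
    {w : FF (M * p) →ₐ[Qb] FF (M * p)} (hw : IsAL M p w) (S : Finset ℕ) (a : ℕ → ℤ)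
    (y₀ y : Kum (M * p) p) : Prop where
  ne : y₀ ≠ 0
  k1 : InK1 A y₀
  eps : ∃ ε : ℤ, (ε = 1 ∨ ε = -1) ∧ wKum hw hp p y₀ = ε • y₀ ∧ wKum hw hp p y = ε • y
  nm₀ : nmKum M p p y₀ = 0
  nm : nmKum M p p y = 0
  tor : ∀ s ∈ A.inertiaSubgroupIn ℚ, ∀ e : ℕ, (∀ z : Qb, z ^ p = 1 → s z = z ^ e) →
    galKum (M * p) p s y₀ = e • y₀
  coc : ∀ s ∈ A.inertiaSubgroupIn ℚ, ∃ n : ℕ, galKum (M * p) p s y = y + n • y₀
  eig₀ : ∀ (ℓ : ℕ) [NeZero ℓ] (hℓ : ℓ.Prime) (hℓN : ¬ ℓ ∣ M * p), ℓ ∉ S →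
    heckeKum (M * p) ℓ hℓ hℓN p y₀ = a ℓ • y₀
  eig : ∀ (ℓ : ℕ) [NeZero ℓ] (hℓ : ℓ.Prime) (hℓN : ¬ ℓ ∣ M * p), ℓ ∉ S →
    heckeKum (M * p) ℓ hℓ hℓN p y = a ℓ • y

/-- **CONST** (Picard-Lefschetz mod `p` by the cover trick). -/
def Const (M p : ℕ) [NeZero M] [NeZero p] (hp : p.Prime) : Prop :=
  ∀ (A : ValuationSubring Qb), A.LiesOverPrime p →
  ∀ (w : FF (M * p) →ₐ[Qb] FF (M * p)) (hw : IsAL M p w) (ζ : Qb), IsPrimitiveRoot ζ p →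
  ∀ (S : Finset ℕ) (a : ℕ → ℤ) (y₀ y : Kum (M * p) p), Pair M p hp A hw S a y₀ y →
  ∃ ϖ : Qb, ϖ ≠ 0 ∧
    (∀ s ∈ I1 A ζ, ∀ n : ℕ, galKum (M * p) p s y = y + n • y₀ → s ϖ * ζ ^ n = ϖ) ∧
    (ValZ A (ζ - 1) ϖ →
      ∃ (f : Dm (M * p) p) (T c : ℤ), Kum.mk f = y ∧ ¬ (p : ℤ) ∣ T ∧
        CuspP M A p (((f : (FF (M * p))ˣ) : FF (M * p)) : LaurentSeries Qb) ∧
        Eis.NC M A p ((((f : (FF (M * p))ˣ) : FF (M * p)) : LaurentSeries Qb) ^ T * XD Qb p ^ (-c)))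

/-- **TRES**, group form. -/
def Tres (p : ℕ) : Prop :=
  ∀ (A : ValuationSubring Qb), A.LiesOverPrime p → ∀ ζ : Qb, IsPrimitiveRoot ζ p →
  ∀ Γ : Subgroup GQ, (∀ g ∈ Γ, g ζ = ζ) →
    (∀ x : Qb, x ≠ 0 → (∀ g ∈ Γ, g x = x) → ValZ A (ζ - 1) x) →
  ∀ ϖ : Qb, ϖ ≠ 0 → (∀ g ∈ Γ, ∃ i : ℕ, g ϖ = ζ ^ i * ϖ) → ¬ ValZ A (ζ - 1) ϖ →
  ∀ a ∈ A, (∀ g ∈ Γ, g ϖ = ϖ → g a = a) →
  ∀ g ∈ Γ, (g a - a) / (ζ - 1) ∈ A.nonunits

/-- **OLD** (route B). -/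
def Old (M p : ℕ) [NeZero M] : Prop :=
  ∀ (A : ValuationSubring Qb), A.LiesOverPrime p →
  ∀ (S : Finset ℕ) (hMS : ∀ q : ℕ, q.Prime → q ∣ M → q ∈ S), p ∈ S →
  ∀ (a : ℕ → ℤ) (P : FreeAlgebra ℤ (GP S)),
    (∀ m : ℕ, 0 < m → FreeAlgebra.lift ℤ (fun ℓ : GP S => heckeT M m (ℓ.good hMS)) P = 0) →
    ¬ (p : ℤ) ∣ FreeAlgebra.lift ℤ (fun ℓ : GP S => a ℓ.1) P →
  ∀ φ : LaurentSeries (kA A), ALLk M A p φ →
    (∀ (ℓ : ℕ) [NeZero ℓ], ℓ.Prime → ℓ ∉ S → ∃ (c : kA A) (h : LaurentSeries (kA A)),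
      h ∈ resF M A ∧ heckeSer ℓ φ = cstk A c * φ ^ (a ℓ) * h ^ p) →
  ∃ (c : kA A) (h : LaurentSeries (kA A)), h ∈ resF M A ∧ φ = cstk A c * h ^ p

/-- residue degree one of `v_∞` on `FF (M p)`. -/
def ResDeg (M p : ℕ) : Prop :=
  ∀ (A : ValuationSubring Qb), A.LiesOverPrime p →
  ∀ (f : FF (M * p)) (φ : LaurentSeries (kA A)), RedTo A (f : LaurentSeries Qb) φ → φ ∈ resF M A

end

end Fermat.Agent.S44
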