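import Fermat.Agent.S44.TopE
import Fermat.Agent.S44.Soft.Frey
import Fermat.Agent.S44.Soft.Pol
import Fermat.Prelude.Def_FreyPackage_IsConductorLevel

/-!
# S44 / Final : the frozen statement from `Const`, `Old`, `ResDeg`

`final` : `Const + Old + ResDeg ⟹ S44`.  Everything else (Soft, E-side, Eis, Top) is plugged in here.
-/

set_option autoImplicit false

open AlgebraicCurve ModularCurve
open WeierstrassCurve WeierstrassCurve.Affine WeierstrassCurve.Affine.Point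

namespace Fermat.Agent.S44

open Fermat.Agent.ES Fermat.Agent.SS Fermat.Agent.S33

theorem final
    (hconst : ∀ (M p : ℕ) [NeZero M] [NeZero p] (hp : p.Prime), 5 ≤ p → ¬ p ∣ M → Const M p hp)
    (hold : ∀ (M p : ℕ) [NeZero M], p.Prime → 5 ≤ p → ¬ p ∣ M → Old M p)
    (hres : ∀ (M p : ℕ) [NeZero M], p.Prime → 5 ≤ p → ¬ p ∣ M → ResDeg M p)
    (P : FreyPackage) {N : ℕ} (hcond : P.IsConductorLevel N) (hpN : P.p ∣ N)
    (hirr : GaloisRepIsIrreducible (K := AlgebraicClosure ℚ) ℚ P.freyCurve P.p)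
    (hmod : P.ModularRepOfLevel N) :
    ∃ M : ℕ, M ∣ N ∧ ¬ P.p ∣ M ∧ P.ModularRepOfLevel M := by
  have hp : P.p.Prime := P.pp
  have hp5 : 5 ≤ P.p := P.hp5
  obtain ⟨M, hM⟩ := hpN
  rw [mul_comm] at hM
  subst hM
  have hM0 : NeZero M := ⟨fun h => hcond.pos.ne' (by rw [h, zero_mul])⟩
  have hp0 : NeZero P.p := ⟨hp.ne_zero⟩
  have hpM : ¬ P.p ∣ M := by
    rintro ⟨t, rfl⟩
    exact hcond.sq_not_dvd hp ⟨t, by ring⟩
  refine ⟨M, Dvd.intro _ rfl, hpM, ?_⟩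
  by_contra hno
  obtain ⟨f, W, 𝔪, hf, hW, h𝔪, hp𝔪, hcong⟩ := hmod
  have hΔ := Soft.model_Δ_ne_zero P W hW
  -- the finite set of bad primes
  let S : Finset ℕ := (M * P.p * W.Δ.natAbs).primeFactors
  have hprod : M * P.p * W.Δ.natAbs ≠ 0 :=
    mul_ne_zero (mul_ne_zero (NeZero.ne M) hp.ne_zero) (Int.natAbs_ne_zero.2 hΔ)
  have hmemS : ∀ q : ℕ, q.Prime → (q ∈ S ↔ q ∣ M ∨ q = P.p ∨ (q : ℤ) ∣ W.Δ) := by
    intro q hq
    rw [Nat.mem_primeFactors]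
    constructor
    · rintro ⟨-, h, -⟩
      rcases (Nat.Prime.dvd_mul hq).1 h with h | h
      · rcases (Nat.Prime.dvd_mul hq).1 h with h | h
        · exact Or.inl h
        · exact Or.inr (Or.inl ((Nat.prime_dvd_prime_iff_eq hq hp).1 h))
      · exact Or.inr (Or.inr (Int.natCast_dvd.2 h))
    · rintro (h | rfl | h)
      · exact ⟨hq, (h.mul_right _).mul_right _, hprod⟩
      · exact ⟨hq, (Dvd.intro_left M rfl).mul_right _, hprod⟩
      · exact ⟨hq, (Int.natCast_dvd.1 h).mul_left _, hprod⟩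
  have hpS : P.p ∈ S := (hmemS _ hp).2 (Or.inr (Or.inl rfl))
  have hMS : ∀ q : ℕ, q.Prime → q ∣ M → q ∈ S := fun q hq h => (hmemS q hq).2 (Or.inl h)
  have hWS : ∀ q : ℕ, q.Prime → (q : ℤ) ∣ W.Δ → q ∈ S := fun q hq h =>
    (hmemS q hq).2 (Or.inr (Or.inr h))
  -- the separating polynomial
  obtain ⟨Pol, hPol, hPol'⟩ := Soft.exists_pol M P.p hp S hMS (fun ℓ => W.apOfModel ℓ) (by
    rintro ⟨g, 𝔪', hg, h𝔪', hp𝔪', hcong'⟩
    refine hno ⟨g, W, 𝔪', hg, hW, h𝔪', hp𝔪', fun ℓ hℓ hgood hℓM hℓp => hcong' ℓ hℓ ?_⟩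
    intro hℓS
    rcases (hmemS ℓ hℓ).1 hℓS with h | h | h
    · exact hℓM h
    · exact hℓp h
    · exact hgood h)
  obtain ⟨A, hA⟩ := Fermat.Agent.S54.exists_liesOverPrime P.p hp
  obtain ⟨w, hw⟩ := exists_isAL M P.p hp hpM
  obtain ⟨ζ, hζ⟩ := HasEnoughRootsOfUnity.exists_primitiveRoot Qb P.p
  obtain ⟨y₀, y, hpair, hy, hE1, hE2, hE3⟩ := Soft.soft_frey P hpM A hA hw hirr W hW S hpS hMS hWS
    f hf 𝔪 h𝔪 hp𝔪 hcong Pol (hPol P.p hp.pos) hPol'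
  exact core' hp hp5 hpM (hconst M P.p hp hp5 hpM) (hold M P.p hp hp5 hpM) (hres M P.p hp hp5 hpM)
    hA hw hζ S hMS hpS (fun ℓ => W.apOfModel ℓ) Pol hPol hPol' hpair hy hE3
    (fun ϖ h0 h => valZ_of_frey P (hcond.p_dvd_abc (Dvd.intro_left M rfl)) hA hζ hpair hE1 hE2 h0 h)

end Fermat.Agent.S44
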