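import Fermat.Agent.S44.Defs
import Fermat.Agent.S44.Eis.Main
import Fermat.Agent.S44.ESide.TresGrp
import Fermat.Agent.S44.ESide.VG

/-!
# S44 / Top : the abstract top level   (T4)-(T7) of the blueprint

`core` : `Const + Old + ResDeg + E-PEU +` (output of Soft) `⟹ False`.
-/

set_option autoImplicit false

open AlgebraicCurve ModularCurve

namespace Fermat.Agent.S44

open Fermat.Agent.ES Fermat.Agent.SS Fermat.Agent.S33
open Fermat.Agent.S37.Mod (resF)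
open Fermat.Agent.S44.Eis (jt NCk ALLk HasRed)
open Fermat.Agent.S44.XD (XD)

noncomputable section

variable {M p : ℕ} [NeZero M] [NeZero p] {A : ValuationSubring Qb}

/-! ### small lemmas -/

theorem Kum.mk_zpow' {N m : ℕ} (f : Dm N m) (a : ℤ) : Kum.mk (f ^ a) = a • Kum.mk f := by
  cases a with
  | ofNat n => simpa using Kum.mk_pow f n
  | negSucc n =>
    rw [zpow_negSucc, Kum.mk_inv, Kum.mk_pow, negSucc_zsmul]

/-- every nonzero element of `FF (M p)` reduces, up to a constant, into `Ft`. -/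
theorem hasRed_of_resDeg (hres : ResDeg M p) (hA : A.LiesOverPrime p) (u : FF (M * p))
    (hu : u ≠ 0) : HasRed M A (u : LaurentSeries Qb) := by
  obtain ⟨c, r, hc, hr, h⟩ := exists_redTo A u hu
  refine ⟨r, ⟨c, hc, h⟩, hr, ?_⟩
  exact hres A hA (algebraMap Qb (FF (M * p)) c * u) r h

/-- the eigenvector equation, on representatives. -/
theorem exists_hecke_rel {N m : ℕ} [NeZero N] {ℓ : ℕ} [NeZero ℓ] (hℓ : ℓ.Prime) (hℓN : ¬ ℓ ∣ N)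
    (f : Dm N m) (a : ℤ) (h : heckeKum N ℓ hℓ hℓN m (Kum.mk f) = a • Kum.mk f) :
    ∃ g : FF N, g ≠ 0 ∧ heckeSer ℓ (((f : (FF N)ˣ) : FF N) : LaurentSeries Qb)
      = cst 1 * (((f : (FF N)ˣ) : FF N) : LaurentSeries Qb) ^ a * (g : LaurentSeries Qb) ^ m := by
  rw [heckeKum_mk, ← Kum.mk_zpow', Kum.mk_eq_mk_iff] at h
  obtain ⟨g, hg⟩ := h
  refine ⟨g, g.ne_zero, ?_⟩
  have h1 : heckeU N ℓ hℓ hℓN (f : (FF N)ˣ) = (f : (FF N)ˣ) ^ a * g ^ m := by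
    rw [hg]
    simp
  have h2 := congrArg (fun t : (FF N)ˣ => (((t : FF N)) : LaurentSeries Qb)) h1
  simp only [coe_heckeU, coe_heckeF] at h2
  rw [h2, cst, map_one, one_mul]
  push_cast
  rfl

/-- TASK `S44/Top-InK1`.  `φ = const * h ^ p` with `h ∈ Ft` `⟹` the class is in the kernel of the reduction.
`h ≠ 0`, `c ≠ 0` (as `φ ≠ 0`).  `hh : ∃ H, S37.Mod.RedRel M A H h`; `H ∈ FF M` (`RedRel.mem`), `H ≠ 0`; unfolding `RedRel`
gives `RedTo A H h` (see the end of `Eis.hasRed_of_mem`), so `RedUp A H h`.  Representative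
`u := f * (alphaU M p (Units.mk0 ⟨H, _⟩ _)⁻¹) ^ p ∈ Dm` (`Pw_le_Dm`), `Kum.mk u = Kum.mk f` (`Kum.mk_eq_mk_iff`, as in `S33.raise`);
its series is `F * (H⁻¹) ^ p` (`coe_alphaU`, `coe_heckeAlphaBar`), `RedUp` to `φ * (h⁻¹) ^ p = cstk c`
(`RedUp.mul`, `RedUp.inv`, `RedUp.pow`).  `c = resA a`, `a` a unit of `A`: multiply by `cst a⁻¹`
(`RedTo.cst_of_mem`, `RedTo.mul`) to get `RedUp A u 1`; `SS.redConst_of_redUp`. -/
theorem inK1_of_ppow (f : Dm (M * p) p) {φ h : LaurentSeries (kA A)} {c : kA A} (hφ : φ ≠ 0)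
    (hred : RedUp A (((f : (FF (M * p))ˣ) : FF (M * p)) : LaurentSeries Qb) φ)
    (hh : h ∈ resF M A) (e : φ = cstk A c * h ^ p) : InK1 A (Kum.mk f) := by
  have hp0 : p ≠ 0 := NeZero.ne p
  have hh0 : h ≠ 0 := by
    rintro rfl
    exact hφ (by rw [e, zero_pow hp0, mul_zero])
  have hc0 : c ≠ 0 := by
    rintro rfl
    exact hφ (by rw [e, cstk, map_zero, zero_mul])
  obtain ⟨H, hH⟩ := hh
  have hHmem : H ∈ modularFunctionFieldBar M := hH.mem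
  have hHto : RedTo A H h := by
    obtain ⟨a, b, -, -, hb, h1, h2⟩ := hH
    exact ⟨a, b, hb, h1, h2.symm⟩
  have hH0 : H ≠ 0 := by
    rintro rfl
    obtain ⟨a, b, hb, h1, h2⟩ := hHto
    rw [zero_mul] at h1
    have ha : a = 0 := S37.Mod.io_injective (by rw [map_zero]; exact h1.symm)
    rw [ha, map_zero] at h2
    exact (mul_ne_zero hh0 hb) h2.symm
  have hHup : RedUp A H h := ⟨1, one_ne_zero, hHto.congr (by rw [cst, map_one, one_mul]) rfl⟩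
  -- the new representative
  let Hu : (FF M)ˣ := Units.mk0 (⟨H, hHmem⟩ : FF M) (fun h0 => hH0 (congrArg Subtype.val h0))
  let v : (FF (M * p))ˣ := (f : (FF (M * p))ˣ) * (alphaU M p Hu⁻¹) ^ p
  have hv : v ∈ Dm (M * p) p :=
    (Dm (M * p) p).mul_mem f.2 (Pw_le_Dm _ _ ⟨alphaU M p Hu⁻¹, rfl⟩)
  refine ⟨⟨v, hv⟩, ?_, ?_⟩
  · rw [Kum.mk_eq_mk_iff]
    refine ⟨alphaU M p Hu⁻¹, ?_⟩
    show _ = (f : (FF (M * p))ˣ) * (alphaU M p Hu⁻¹) ^ p * (f : (FF (M * p))ˣ)⁻¹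
    rw [mul_comm (f : (FF (M * p))ˣ), mul_assoc, mul_inv_cancel, mul_one]
  · apply redConst_of_redUp
    have e1 : ((v : FF (M * p)) : LaurentSeries Qb)
        = (((f : (FF (M * p))ˣ) : FF (M * p)) : LaurentSeries Qb) * (H⁻¹) ^ p := by
      have e4 : (v : FF (M * p))
          = ((f : (FF (M * p))ˣ) : FF (M * p)) * ((heckeAlphaBar Qb M p (Hu : FF M))⁻¹) ^ p := by
        simp only [v, Units.val_mul, Units.val_pow_eq_pow_val, coe_alphaU,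
          Units.val_inv_eq_inv_val, map_inv₀]
      rw [e4]
      push_cast
      rw [coe_heckeAlphaBar]
      rfl
    have h1 : RedUp A ((v : FF (M * p)) : LaurentSeries Qb) (cstk A c) := by
      rw [e1]
      refine (hred.mul ((hHup.inv hh0).pow p)).congr rfl ?_
      rw [e, inv_pow, mul_assoc, mul_inv_cancel₀ (pow_ne_zero _ hh0), mul_one]
    obtain ⟨d, hd, h2⟩ := h1
    obtain ⟨a, rfl⟩ := IsLocalRing.residue_surjective c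
    have hau : IsUnit a := by
      by_contra hnu
      exact hc0 ((IsLocalRing.residue_eq_zero_iff a).mpr ((IsLocalRing.mem_maximalIdeal a).mpr hnu))
    obtain ⟨a', ha'⟩ := hau.exists_left_inv
    have ha'0 : (a' : Qb) ≠ 0 := by
      intro h0
      have : a' = 0 := Subtype.ext h0
      rw [this, zero_mul] at ha'
      exact zero_ne_one ha'
    refine ⟨(a' : Qb) * d, mul_ne_zero ha'0 hd, ((RedTo.cst_of_mem a').mul h2).congr ?_ ?_⟩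
    · rw [cst, cst, cst, map_mul, mul_assoc]
    · rw [cstk, cstk, ← map_mul]
      have : resA A a' * IsLocalRing.residue A a = 1 := by
        rw [← map_mul, ha', map_one]
      rw [this, map_one]

/-! ### (T5) -/

/-- TASK `S44/Top-T5`.  By contradiction (`hno : ¬ ValZ A (ζ - 1) ϖ`), with `Γ := I1 A ζ`.
* `hVG` for `ESide.tres_group'` : `ESide.vg` + `ESide.val_eq_zpow_iff_unit` (`ζ - 1 ≠ 0`).
* `s ∈ Γ`: `hpair.coc` gives `n` with `s y = y + n • y₀`, `hϖ`: `s ϖ * ζ ^ n = ϖ`, so `s ϖ = ζ ^ ((p - 1) * n) * ϖ`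
  (`ζ ^ (p * n) = 1`).
* some `s ∈ Γ` has `s ϖ ≠ ϖ` (otherwise `hVG ϖ` contradicts `hno`).  Then `s y ≠ y` (else `hϖ s _ 0`), so `¬ triv s` (`hE1`);
  `hpeu` gives `x`.
* `x` is fixed by every `g ∈ Γ` with `g ϖ = ϖ`: `g y = y + n • y₀`, `g ϖ * ζ ^ n = ϖ` so `ζ ^ n = 1`, `p ∣ n`
  (`hζ.dvd_of_pow_eq_one`), `n • y₀ = 0` (`Kum.nsmul_eq_zero`), `g y = y`; `g y₀ = 1 • y₀` by `hpair.tor g _ 1`
  (every `z` with `z ^ p = 1` is a power of `ζ`: `hζ.eq_pow_of_pow_eq_one`); `hE2`.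
* `tres_group'`: `(s x - x) / (ζ - 1) ∈ A.nonunits`, and its inverse `(ζ - 1) / (s x - x) ∈ A`: the product `1` would be a
  nonunit (`ValuationSubring.valuation_lt_one_iff` / `mem_nonunits_iff`, `valuation_le_one_iff`). -/
theorem valZ_of_peu (hp : p.Prime) (hA : A.LiesOverPrime p)
    {w : FF (M * p) →ₐ[Qb] FF (M * p)} {hw : IsAL M p w} {ζ : Qb} (hζ : IsPrimitiveRoot ζ p)
    {S : Finset ℕ} {a : ℕ → ℤ} {y₀ y : Kum (M * p) p} (hpair : Pair M p hp A hw S a y₀ y)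
    (triv : GQ → Prop)
    (hE1 : ∀ s : GQ, triv s → galKum (M * p) p s y = y)
    (hE2 : ∀ g : GQ, galKum (M * p) p g y₀ = y₀ → galKum (M * p) p g y = y → triv g)
    (hpeu : ∀ s ∈ A.inertiaSubgroupIn ℚ, ¬ triv s →
      ∃ x ∈ A, (∀ g : GQ, triv g → g x = x) ∧ s x ≠ x ∧ (ζ - 1) / (s x - x) ∈ A)
    {ϖ : Qb} (hϖ0 : ϖ ≠ 0)
    (hϖ : ∀ s ∈ I1 A ζ, ∀ n : ℕ, galKum (M * p) p s y = y + n • y₀ → s ϖ * ζ ^ n = ϖ) :
    ValZ A (ζ - 1) ϖ := by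
  by_contra hno
  have hl : ζ - 1 ≠ 0 := sub_ne_zero.2 (hζ.ne_one hp.one_lt)
  have hζp : ζ ^ p = 1 := hζ.pow_eq_one
  have hGζ : ∀ g ∈ I1 A ζ, g ζ = ζ := fun g hg => hg.2
  have hVG : ∀ x : Qb, x ≠ 0 → (∀ g ∈ I1 A ζ, g x = x) →
      ∃ n : ℤ, x / (ζ - 1) ^ n ∈ A ∧ (x / (ζ - 1) ^ n)⁻¹ ∈ A := by
    intro x hx0 hx
    obtain ⟨n, hn⟩ := ESide.vg A hp hA ζ hζ x hx0 (fun s hs hsζ => hx s ⟨hs, hsζ⟩)
    exact ⟨n, (ESide.val_eq_zpow_iff_unit A hx0 hl n).1 hn⟩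
  have hϖ' : ∀ g ∈ I1 A ζ, ∃ i : ℕ, g ϖ = ζ ^ i * ϖ := by
    intro g hg
    obtain ⟨n, hn⟩ := hpair.coc g hg.1
    have h1 := hϖ g hg n hn
    refine ⟨(p - 1) * n, ?_⟩
    have h2 : ζ ^ ((p - 1) * n) * ζ ^ n = 1 := by
      rw [← pow_add]
      have h3 : (p - 1) * n + n = p * n := by
        obtain ⟨k, hk⟩ : ∃ k, p = k + 1 := ⟨p - 1, by have := hp.pos; omega⟩
        rw [hk, Nat.add_sub_cancel]
        ring
      rw [h3, pow_mul, hζp, one_pow]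
    calc g ϖ = g ϖ * (ζ ^ ((p - 1) * n) * ζ ^ n) := by rw [h2, mul_one]
      _ = ζ ^ ((p - 1) * n) * (g ϖ * ζ ^ n) := by ring
      _ = ζ ^ ((p - 1) * n) * ϖ := by rw [h1]
  obtain ⟨s, hs, hsϖ⟩ : ∃ s ∈ I1 A ζ, s ϖ ≠ ϖ := by
    by_contra hall
    push Not at hall
    exact hno (hVG ϖ hϖ0 hall)
  have hsy : galKum (M * p) p s y ≠ y := by
    intro h
    have h1 := hϖ s hs 0 (by rw [h, zero_smul, add_zero])
    rw [pow_zero, mul_one] at h1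
    exact hsϖ h1
  have htriv : ¬ triv s := fun h => hsy (hE1 s h)
  obtain ⟨x, hxA, hxfix, hsx, hxinv⟩ := hpeu s hs.1 htriv
  have hfix : ∀ g ∈ I1 A ζ, g ϖ = ϖ → g x = x := by
    intro g hg hgϖ
    apply hxfix
    apply hE2
    · have h1 := hpair.tor g hg.1 1 (by
        intro z hz
        obtain ⟨i, -, rfl⟩ := hζ.eq_pow_of_pow_eq_one hz
        rw [map_pow, hg.2, pow_one])
      rwa [one_smul] at h1
    · obtain ⟨n, hn⟩ := hpair.coc g hg.1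
      have h1 := hϖ g hg n hn
      rw [hgϖ] at h1
      have h2 : ζ ^ n = 1 := by
        have h3 : ϖ * ζ ^ n = ϖ * 1 := by rw [h1, mul_one]
        exact mul_left_cancel₀ hϖ0 h3
      obtain ⟨k, rfl⟩ := hζ.dvd_of_pow_eq_one n h2
      rw [hn, mul_comm p k, mul_smul, Kum.nsmul_eq_zero, smul_zero, add_zero]
  have h1 := ESide.tres_group' A hp ζ hζ (I1 A ζ) hGζ hVG ϖ hϖ0 hϖ' hno x hxA hfix s hs
  have hsx' : s x - x ≠ 0 := sub_ne_zero.2 hsx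
  rw [ValuationSubring.mem_nonunits_iff] at h1
  have h2 := (A.valuation_le_one_iff _).2 hxinv
  have h3 : A.valuation ((s x - x) / (ζ - 1)) * A.valuation ((ζ - 1) / (s x - x)) = 1 := by
    rw [← map_mul, div_mul_div_comm, mul_comm, div_self (mul_ne_zero hl hsx'), map_one]
  have h4 : A.valuation ((s x - x) / (ζ - 1)) * A.valuation ((ζ - 1) / (s x - x)) < 1 :=
    lt_of_le_of_lt (mul_le_of_le_one_right' h2) h1
  exact absurd h3 h4.ne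

/-! ### the core -/

/-- the core, with (T5) as a hypothesis `hval` (fed by `valZ_of_peu` or by `ESide.t5g'`, see `TopE.lean`). -/
theorem core' (hp : p.Prime) (hp5 : 5 ≤ p) (hpM : ¬ p ∣ M)
    (hconst : Const M p hp) (hold : Old M p) (hres : ResDeg M p)
    (hA : A.LiesOverPrime p) {w : FF (M * p) →ₐ[Qb] FF (M * p)} (hw : IsAL M p w)
    {ζ : Qb} (hζ : IsPrimitiveRoot ζ p)
    (S : Finset ℕ) (hMS : ∀ q : ℕ, q.Prime → q ∣ M → q ∈ S) (hpS : p ∈ S) (a : ℕ → ℤ)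
    (Pol : FreeAlgebra ℤ (GP S))
    (hPol : ∀ m : ℕ, 0 < m →
      FreeAlgebra.lift ℤ (fun ℓ : GP S => heckeT M m (ℓ.good hMS)) Pol = 0)
    (hPol' : ¬ (p : ℤ) ∣ FreeAlgebra.lift ℤ (fun ℓ : GP S => a ℓ.1) Pol)
    {y₀ y : Kum (M * p) p} (hpair : Pair M p hp A hw S a y₀ y) (hy : ¬ InK1 A y)
    (hE3 : ∃ ℓ : ℕ, ℓ.Prime ∧ ℓ ∉ S ∧ ¬ (p : ℤ) ∣ a ℓ - (ℓ + 1))
    (hval : ∀ ϖ : Qb, ϖ ≠ 0 →
      (∀ s ∈ I1 A ζ, ∀ n : ℕ, galKum (M * p) p s y = y + n • y₀ → s ϖ * ζ ^ n = ϖ) →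
      ValZ A (ζ - 1) ϖ) :
    False := by
  have hNS : ∀ ℓ : ℕ, ℓ.Prime → ℓ ∉ S → ¬ ℓ ∣ M * p := by
    intro ℓ hℓ hℓS hd
    rcases (Nat.Prime.dvd_mul hℓ).1 hd with h | h
    · exact hℓS (hMS ℓ hℓ h)
    · rw [(Nat.prime_dvd_prime_iff_eq hℓ hp).1 h] at hℓS
      exact hℓS hpS
  obtain ⟨ϖ, hϖ0, hϖ, hmain⟩ := hconst A hA w hw ζ hζ S a y₀ y hpair
  obtain ⟨f, T, c, rfl, hT, hcusp, hNC⟩ :=
    hmain (hval ϖ hϖ0 hϖ)
  set F : LaurentSeries Qb := (((f : (FF (M * p))ˣ) : FF (M * p)) : LaurentSeries Qb) with hF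
  have hfred : HasRed M A F := hasRed_of_resDeg hres hA _ (f : (FF (M * p))ˣ).ne_zero
  -- (T6)
  have hNCf : Eis.NC M A p F := by
    obtain ⟨ℓ, hℓ, hℓS, hne⟩ := hE3
    haveI : NeZero ℓ := ⟨hℓ.ne_zero⟩
    obtain ⟨g, hg0, hg⟩ := exists_hecke_rel hℓ (hNS ℓ hℓ hℓS) f (a ℓ)
      (hpair.eig ℓ hℓ (hNS ℓ hℓ hℓS) hℓS)
    exact Eis.nc_of_eigen hp hp5 hpM hA hℓ (hNS ℓ hℓ hℓS) one_ne_zero hfred
      (hasRed_of_resDeg hres hA g hg0) hT hne hNC hg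
  -- (T7)
  obtain ⟨φ, hφred, hφc⟩ := hcusp
  have hφ0 : φ ≠ 0 := hφc.2.1
  have hall : ALLk M A p φ := allk_of_nck_cuspk (hNCf.nck hφred hφ0) hφc
  obtain ⟨c', h, hh, e⟩ := hold A hA S hMS hpS a Pol hPol hPol' φ hall (by
    intro ℓ _ hℓ hℓS
    obtain ⟨g, hg0, hg⟩ := exists_hecke_rel hℓ (hNS ℓ hℓ hℓS) f (a ℓ)
      (hpair.eig ℓ hℓ (hNS ℓ hℓ hℓS) hℓS)
    obtain ⟨r, hr, hr0, hrm⟩ := hasRed_of_resDeg hres hA g hg0
    have hℓp : ℓ ≠ p := by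
      rintro rfl
      exact hℓS hpS
    have h1 : RedUp A (heckeSer ℓ F) (heckeSer ℓ φ) := Eis.RedUp.heckeSer hp hA hℓ hℓp hφred
    have h2 : RedUp A (heckeSer ℓ F) (φ ^ (a ℓ) * r ^ p) := by
      rw [hg]
      have := (Eis.RedUp.zpow hφred hφ0 (a ℓ)).mul (hr.pow p)
      have h3 := Eis.RedUp.const_mul (c := 1) one_ne_zero this
      rwa [← mul_assoc] at h3
    obtain ⟨ζ', hζ'⟩ := Eis.exists_primitiveRoot_kA hp hA hℓ hℓp
    obtain ⟨d, -, hd⟩ := Eis.RedUp.unique_up h2 h1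
      (mul_ne_zero (zpow_ne_zero _ hφ0) (pow_ne_zero _ hr0)) (Eis.heckeSer_ne_zero hζ' hφ0)
    exact ⟨d, r, hrm, by rw [hd, mul_assoc]⟩)
  exact hy (inK1_of_ppow f hφ0 hφred hh e)

theorem core (hp : p.Prime) (hp5 : 5 ≤ p) (hpM : ¬ p ∣ M)
    (hconst : Const M p hp) (hold : Old M p) (hres : ResDeg M p)
    (hA : A.LiesOverPrime p) {w : FF (M * p) →ₐ[Qb] FF (M * p)} (hw : IsAL M p w)
    {ζ : Qb} (hζ : IsPrimitiveRoot ζ p)
    (S : Finset ℕ) (hMS : ∀ q : ℕ, q.Prime → q ∣ M → q ∈ S) (hpS : p ∈ S) (a : ℕ → ℤ)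
    (Pol : FreeAlgebra ℤ (GP S))
    (hPol : ∀ m : ℕ, 0 < m →
      FreeAlgebra.lift ℤ (fun ℓ : GP S => heckeT M m (ℓ.good hMS)) Pol = 0)
    (hPol' : ¬ (p : ℤ) ∣ FreeAlgebra.lift ℤ (fun ℓ : GP S => a ℓ.1) Pol)
    {y₀ y : Kum (M * p) p} (hpair : Pair M p hp A hw S a y₀ y) (hy : ¬ InK1 A y)
    (triv : GQ → Prop)
    (hE1 : ∀ s : GQ, triv s → galKum (M * p) p s y = y)
    (hE2 : ∀ g : GQ, galKum (M * p) p g y₀ = y₀ → galKum (M * p) p g y = y → triv g)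
    (hE3 : ∃ ℓ : ℕ, ℓ.Prime ∧ ℓ ∉ S ∧ ¬ (p : ℤ) ∣ a ℓ - (ℓ + 1))
    (hpeu : ∀ s ∈ A.inertiaSubgroupIn ℚ, ¬ triv s →
      ∃ x ∈ A, (∀ g : GQ, triv g → g x = x) ∧ s x ≠ x ∧ (ζ - 1) / (s x - x) ∈ A) :
    False :=
  core' hp hp5 hpM hconst hold hres hA hw hζ S hMS hpS a Pol hPol hPol' hpair hy hE3
    (fun _ hϖ0 hϖ => valZ_of_peu hp hA hζ hpair triv hE1 hE2 hpeu hϖ0 hϖ)

end

end Fermat.Agent.S44
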