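import Fermat.Agent.S44.Top
import Fermat.Agent.S44.ESide.T5g

/-!
# S44 / TopE : (T5) for the Frey curve, from the E-side export `ESide.t5g'`

`hval` of `S44.core'` for `p = P.p ∣ abc`, with `triv g := g` trivial on `E[p]`.
-/

set_option autoImplicit false

open AlgebraicCurve ModularCurve
open WeierstrassCurve WeierstrassCurve.Affine WeierstrassCurve.Affine.Point

namespace Fermat.Agent.S44

open Fermat.Agent.ES Fermat.Agent.SS Fermat.Agent.S33

theorem valZ_of_frey (P : FreyPackage) (hpabc : (P.p : ℤ) ∣ P.a * P.b * P.c)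
    {M : ℕ} [NeZero M] [NeZero P.p] {A : ValuationSubring Qb} (hA : A.LiesOverPrime P.p)
    {w : FF (M * P.p) →ₐ[Qb] FF (M * P.p)} {hw : IsAL M P.p w} {ζ : Qb}
    (hζ : IsPrimitiveRoot ζ P.p)
    {S : Finset ℕ} {a : ℕ → ℤ} {y₀ y : Kum (M * P.p) P.p}
    (hpair : Pair M P.p P.pp A hw S a y₀ y)
    (hE1 : ∀ s : GQ, (∀ R : (P.freyCurve⁄Qb).Point, P.p • R = 0 → s • R = R) →
      galKum (M * P.p) P.p s y = y)
    (hE2 : ∀ g : GQ, galKum (M * P.p) P.p g y₀ = y₀ → galKum (M * P.p) P.p g y = y →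
      ∀ R : (P.freyCurve⁄Qb).Point, P.p • R = 0 → g • R = R)
    {ϖ : Qb} (hϖ0 : ϖ ≠ 0)
    (hϖ : ∀ s ∈ I1 A ζ, ∀ n : ℕ, galKum (M * P.p) P.p s y = y + n • y₀ → s ϖ * ζ ^ n = ϖ) :
    ValZ A (ζ - 1) ϖ := by
  have hp : P.p.Prime := P.pp
  have hζp : ζ ^ P.p = 1 := hζ.pow_eq_one
  refine ESide.t5g' P hpabc A hA ζ hζ ϖ hϖ0 ?_ ?_
  · intro g hg hgζ
    obtain ⟨n, hn⟩ := hpair.coc g hg
    have h1 := hϖ g ⟨hg, hgζ⟩ n hn
    refine ⟨(P.p - 1) * n, ?_⟩
    have h2 : ζ ^ ((P.p - 1) * n) * ζ ^ n = 1 := by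
      rw [← pow_add]
      have h3 : (P.p - 1) * n + n = P.p * n := by
        obtain ⟨k, hk⟩ : ∃ k, P.p = k + 1 := ⟨P.p - 1, by have := hp.pos; omega⟩
        rw [hk, Nat.add_sub_cancel]
        ring
      rw [h3, pow_mul, hζp, one_pow]
    calc g ϖ = g ϖ * (ζ ^ ((P.p - 1) * n) * ζ ^ n) := by rw [h2, mul_one]
      _ = ζ ^ ((P.p - 1) * n) * (g ϖ * ζ ^ n) := by ring
      _ = ζ ^ ((P.p - 1) * n) * ϖ := by rw [h1]
  · intro g hg hgζ
    constructor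
    · intro hgϖ
      apply hE2
      · have h1 := hpair.tor g hg 1 (by
          intro z hz
          obtain ⟨i, -, rfl⟩ := hζ.eq_pow_of_pow_eq_one hz
          rw [map_pow, hgζ, pow_one])
        rwa [one_smul] at h1
      · obtain ⟨n, hn⟩ := hpair.coc g hg
        have h1 := hϖ g ⟨hg, hgζ⟩ n hn
        rw [hgϖ] at h1
        have h2 : ζ ^ n = 1 := by
          have h3 : ϖ * ζ ^ n = ϖ * 1 := by rw [h1, mul_one]
          exact mul_left_cancel₀ hϖ0 h3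
        obtain ⟨k, rfl⟩ := hζ.dvd_of_pow_eq_one n h2
        rw [hn, mul_comm P.p k, mul_smul, Kum.nsmul_eq_zero, smul_zero, add_zero]
    · intro htriv
      have h := hE1 g htriv
      have h1 := hϖ g ⟨hg, hgζ⟩ 0 (by rw [h, zero_smul, add_zero])
      rwa [pow_zero, mul_one] at h1

end Fermat.Agent.S44
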